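/-
Project S35, instance-level cell [TAU-INST] "THE SQUARE OF THE FROBENIUS LIFT ON THE MODEL",
abstract half (helper20).  Prefix `s35ti_`.

`tori_core` (helper19, S35/Toric/Core.lean) and `s35l_locAt_point` (helper10) take an automorphism `τ`
of the function field `F0` with: `τ` semilinear over a lift `τ0` of the `Q`-power map of the
constants, `τ x = x`, `τ` preserves the charts and the two vertical primes `P_i = ssm_tp_P B V_i`.
This file proves these facts abstractly:

* `s35ti_mem_iff`, `s35ti_nonunits_iff` : a field automorphism mapping a valuation ring and its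
  maximal ideal into themselves preserves both in the strong (`↔`) sense;
* `s35ti_comap_mem_iff`, `s35ti_comap_nonunits_iff` : transport to `V.comap W` when `W` commutes;
* `s35ti_chart_iff` : a semilinear automorphism fixing the coordinates preserves the chart (`↔`);
* `s35ti_P_iff` : it preserves the vertical prime `ssm_tp_P B V` (no model hypothesis needed);
* `s35ti_tau0_dvd` : the square of a Frobenius lift of a discrete valuation ring `O` is
  `a ↦ a^(q²)` modulo the uniformiser;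
* Gauss level: `s35ti_gauss_mem`, `s35ti_gauss_nonunits` for `coeffMap σ` on a subfield of the
  field of bounded quotients.
-/
import Mathlib
import Fermat.Agent.S35.NodeFrob.Gauss
import Fermat.Agent.SS.Model.Sigma
import Fermat.Agent.SS.Model.TwoPrimes
import Fermat.Agent.SS.Model.TwoValW

set_option autoImplicit false
set_option linter.unusedSectionVars false
set_option linter.style.haveILetI false

noncomputable section

open ModularCurve IsLocalRing

namespace Fermat.Agent.S35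

open Fermat.Agent.JT3 Fermat.Agent.SS

/-! ### valuation rings -/

section Val

variable {E : Type*} [Field E] (σ : E ≃+* E) (V : ValuationSubring E)

/-- an automorphism mapping `V` into `V` and `𝔪(V)` into `𝔪(V)` satisfies `σ z ∈ V ↔ z ∈ V`. -/
theorem s35ti_mem_iff (h1 : ∀ t ∈ V, σ t ∈ V) (h2 : ∀ t ∈ V.nonunits, σ t ∈ V.nonunits) (z : E) :
    σ z ∈ V ↔ z ∈ V := by
  refine ⟨fun hz => ?_, h1 z⟩
  by_contra hzV
  have hinvV : z⁻¹ ∈ V := (V.mem_or_inv_mem z).resolve_left hzV
  have hinv : z⁻¹ ∈ V.nonunits := by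
    rw [ValuationSubring.mem_nonunits_iff_or, inv_inv]
    exact Or.inr hzV
  have h3 := h2 _ hinv
  rw [map_inv₀, ValuationSubring.mem_nonunits_iff_or, inv_inv, inv_eq_zero] at h3
  rcases h3 with h3 | h3
  · apply hzV
    rw [(map_eq_zero_iff σ σ.injective).1 h3]
    exact V.zero_mem
  · exact h3 hz

/-- … and `σ z ∈ 𝔪(V) ↔ z ∈ 𝔪(V)`. -/
theorem s35ti_nonunits_iff (h1 : ∀ t ∈ V, σ t ∈ V) (h2 : ∀ t ∈ V.nonunits, σ t ∈ V.nonunits)
    (z : E) : σ z ∈ V.nonunits ↔ z ∈ V.nonunits := by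
  refine ⟨fun hz => ?_, h2 z⟩
  rw [ValuationSubring.mem_nonunits_iff_or] at hz ⊢
  rcases hz with hz | hz
  · exact Or.inl ((map_eq_zero_iff σ σ.injective).1 hz)
  · refine Or.inr fun h => hz ?_
    rw [← map_inv₀]
    exact h1 _ h

variable (W : E ≃+* E)

/-- transport to `V.comap W` for an automorphism `W` commuting with `σ`. -/
theorem s35ti_comap_mem_iff (hcomm : ∀ z, W (σ z) = σ (W z))
    (h1 : ∀ t ∈ V, σ t ∈ V) (h2 : ∀ t ∈ V.nonunits, σ t ∈ V.nonunits) (z : E) :
    σ z ∈ V.comap (W : E →+* E) ↔ z ∈ V.comap (W : E →+* E) := by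
  rw [ValuationSubring.mem_comap, ValuationSubring.mem_comap]
  show W (σ z) ∈ V ↔ W z ∈ V
  rw [hcomm]
  exact s35ti_mem_iff σ V h1 h2 (W z)

theorem s35ti_comap_nonunits_iff (hcomm : ∀ z, W (σ z) = σ (W z))
    (h1 : ∀ t ∈ V, σ t ∈ V) (h2 : ∀ t ∈ V.nonunits, σ t ∈ V.nonunits) (z : E) :
    σ z ∈ (V.comap (W : E →+* E)).nonunits ↔ z ∈ (V.comap (W : E →+* E)).nonunits := by
  rw [ssm_tw_nonunits_comap, ssm_tw_nonunits_comap, hcomm]
  exact s35ti_nonunits_iff σ V h1 h2 (W z)

/-- the square. -/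
theorem s35ti_sq_iff {p : E → Prop} (h : ∀ z, p (σ z) ↔ p z) (z : E) :
    p ((σ.trans σ) z) ↔ p z := by
  rw [RingEquiv.trans_apply, h, h]

end Val

/-! ### charts and vertical primes -/

section Chart

universe v

variable {A0 : Type*} [CommRing A0] {F0 : Type v} [Field F0] [Algebra A0 F0]
  (τ : F0 ≃+* F0) (τ0 : A0 ≃+* A0)

/-- a semilinear automorphism fixing the coordinates preserves the chart, in the `↔` sense. -/
theorem s35ti_chart_iff (hbase : ∀ a : A0, τ (algebraMap A0 F0 a) = algebraMap A0 F0 (τ0 a))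
    (S : Set F0) (hS : ∀ s ∈ S, τ s = s) (z : F0) :
    τ z ∈ fc_chart A0 S ↔ z ∈ fc_chart A0 S := by
  constructor
  · intro hz
    have h := ssm_sg_chart (τ.symm : F0 →+* F0) (τ0.symm : A0 →+* A0) (fun a => by
      show τ.symm (algebraMap A0 F0 a) = algebraMap A0 F0 (τ0.symm a)
      rw [RingEquiv.symm_apply_eq, hbase, RingEquiv.apply_symm_apply]) S (fun s hs => by
      show τ.symm s ∈ _
      rw [(RingEquiv.symm_apply_eq τ).2 (hS s hs).symm]
      exact Algebra.subset_adjoin hs) hz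
    have e : (τ.symm : F0 →+* F0) (τ z) = z := τ.symm_apply_apply z
    rwa [e] at h
  · intro hz
    exact ssm_sg_chart (τ : F0 →+* F0) (τ0 : A0 →+* A0) hbase S (fun s hs => by
      show τ s ∈ _
      rw [hS s hs]
      exact Algebra.subset_adjoin hs) hz

/-- an automorphism preserving the subalgebra `B` and the maximal ideal of `V` preserves the
vertical prime `ssm_tp_P B V`. -/
theorem s35ti_P_iff (B : Subalgebra A0 F0) (V : ValuationSubring F0)
    (hτB : ∀ z, τ z ∈ B ↔ z ∈ B) (hτV : ∀ z, τ z ∈ V.nonunits ↔ z ∈ V.nonunits)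
    (b b' : B) (h : (b' : F0) = τ (b : F0)) : b' ∈ ssm_tp_P B V ↔ b ∈ ssm_tp_P B V := by
  constructor
  · intro hb' c
    have hc : τ (c : F0) ∈ B := (hτB _).2 c.2
    have := hb' ⟨τ (c : F0), hc⟩
    rw [h] at this
    have e : ((⟨τ (c : F0), hc⟩ : B) : F0) * τ (b : F0) = τ ((c : F0) * (b : F0)) := by
      rw [map_mul]
    rw [e] at this
    exact (hτV _).1 this
  · intro hb c
    have hc : τ.symm (c : F0) ∈ B := by
      rw [← hτB, RingEquiv.apply_symm_apply]
      exact c.2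
    have := hb ⟨τ.symm (c : F0), hc⟩
    rw [h]
    have e : (c : F0) * τ (b : F0) = τ (((⟨τ.symm (c : F0), hc⟩ : B) : F0) * (b : F0)) := by
      rw [map_mul, RingEquiv.apply_symm_apply]
    rw [e]
    exact (hτV _).2 this

/-- the restriction of `τ` to a stable subalgebra `B`, as a ring automorphism. -/
def s35ti_restrict (B : Subalgebra A0 F0) (hτB : ∀ z, τ z ∈ B ↔ z ∈ B) : B ≃+* B where
  toFun b := ⟨τ (b : F0), (hτB _).2 b.2⟩
  invFun b := ⟨τ.symm (b : F0), by
    rw [← hτB, RingEquiv.apply_symm_apply]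
    exact b.2⟩
  left_inv b := Subtype.ext (τ.symm_apply_apply (b : F0))
  right_inv b := Subtype.ext (τ.apply_symm_apply (b : F0))
  map_mul' a b := Subtype.ext (map_mul τ (a : F0) (b : F0))
  map_add' a b := Subtype.ext (map_add τ (a : F0) (b : F0))

@[simp] theorem s35ti_restrict_coe (B : Subalgebra A0 F0) (hτB : ∀ z, τ z ∈ B ↔ z ∈ B) (b : B) :
    ((s35ti_restrict τ B hτB b : B) : F0) = τ (b : F0) := rfl

/-- `τ_B⁻¹ (P) = P` for the vertical prime `P = ssm_tp_P B V`. -/
theorem s35ti_P_comap (B : Subalgebra A0 F0) (V : ValuationSubring F0)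
    (hτB : ∀ z, τ z ∈ B ↔ z ∈ B) (hτV : ∀ z, τ z ∈ V.nonunits ↔ z ∈ V.nonunits) :
    (ssm_tp_P B V).comap (s35ti_restrict τ B hτB : B →+* B) = ssm_tp_P B V := by
  ext b
  rw [Ideal.mem_comap]
  exact s35ti_P_iff τ B V hτB hτV b _ rfl

end Chart

/-! ### the base -/

section Base

variable {L : Type*} [Field L] {O : ValuationSubring L} {σ : L ≃+* L} {q : ℕ}

/-- `σ0²` on `O`. -/
def s35ti_tau0 (h : s35nf_FrobAt O σ q) : O ≃+* O := (s35nf_base h).trans (s35nf_base h)

@[simp] theorem s35ti_tau0_coe (h : s35nf_FrobAt O σ q) (a : O) :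
    ((s35ti_tau0 h a : O) : L) = σ (σ (a : L)) := rfl

/-- `σ0² a ≡ a^(q²)` modulo the uniformiser. -/
theorem s35ti_tau0_dvd (h : s35nf_FrobAt O σ q) {π : O} (hπ : maximalIdeal O = Ideal.span {π})
    (a : O) : π ∣ s35ti_tau0 h a - a ^ (q ^ 2) := by
  rw [← Ideal.mem_span_singleton, ← hπ, ← residue_eq_zero_iff, map_sub, map_pow, sub_eq_zero]
  exact s35nf_residue_sq h a

/-- helper6's seam predicate `s35_Frob` is `s35nf_FrobAt` (same body). -/
theorem s35ti_frobAt_of (hφ : ∀ x ∈ O, σ x ∈ O ∧ σ.symm x ∈ O ∧ σ x - x ^ q ∈ O.nonunits) :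
    s35nf_FrobAt O σ q := hφ

end Base

/-! ### the Gauss valuation -/

section Gauss

variable {L : Type*} [Field L] {O : ValuationSubring L} [WfDvdMonoid O] {σ : L ≃+* L} {q : ℕ}
  [NeZero q] [hq : Fact q.Prime] [CharP (ResidueField O) q]
variable (π : O) (hπ0 : π ≠ 0) (hπ : maximalIdeal O = Ideal.span {π})
  (E : IntermediateField L (LaurentSeries L)) (hE : E ≤ gq_quotField O L)

/-- the coefficientwise action of a Frobenius lift preserves the Gauss ring of `E` (`↔`). -/
theorem s35ti_gauss_mem (h : s35nf_FrobAt O σ q) (σE : ↥E ≃+* ↥E)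
    (hσE : ∀ z : ↥E, ((σE z : ↥E) : LaurentSeries L) =
      coeffMap (σ : L →+* L) (z : LaurentSeries L)) (z : ↥E) :
    σE z ∈ gq_valSubOf π hπ0 hπ E hE ↔ z ∈ gq_valSubOf π hπ0 hπ E hE :=
  s35ti_mem_iff σE _ (fun t ht => s35nf_mem_valSubOf π hπ0 hπ E hE h t _ (hσE t) ht)
    (fun t ht => s35nf_mem_nonunits π hπ0 hπ E hE h t _ (hσE t) ht) z

/-- … and its maximal ideal. -/
theorem s35ti_gauss_nonunits (h : s35nf_FrobAt O σ q) (σE : ↥E ≃+* ↥E)
    (hσE : ∀ z : ↥E, ((σE z : ↥E) : LaurentSeries L) =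
      coeffMap (σ : L →+* L) (z : LaurentSeries L)) (z : ↥E) :
    σE z ∈ (gq_valSubOf π hπ0 hπ E hE).nonunits ↔ z ∈ (gq_valSubOf π hπ0 hπ E hE).nonunits :=
  s35ti_nonunits_iff σE _ (fun t ht => s35nf_mem_valSubOf π hπ0 hπ E hE h t _ (hσE t) ht)
    (fun t ht => s35nf_mem_nonunits π hπ0 hπ E hE h t _ (hσE t) ht) z

end Gauss

end Fermat.Agent.S35
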