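/-
Project S35, instance-level cell [TAU-INST], HESSE tower, coordinate `x = μ - 1` ("Option M")
(helper20).  Prefix `s35ti_`.  Verbatim twin of `TauInst/Leg.lean`.

`(L, O, π)` any base of residue characteristic `q ≠ 3` (in the application `q = 2`), `σ` a Frobenius
lift at `O` (`s35nf_FrobAt O σ q`), `τ := s35ti_hes_tau h3 M σ = σ_E²` on `E = hs_E L h3 M`
(`σ_E = ssm_sgh_aut h3 M σ`), `τ0 := s35ti_tau0 hσ = σ0²` on `O`, `Q = q²`: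

* `s35ti_hes_base`, `s35ti_tau0_dvd`, `s35ti_hes_x`        : `hτbase`, `hτ0`, `hτx` of `tori_core`;
* `s35ti_hes_chart1/2/12`                                   : `τ z ∈ B ↔ z ∈ B` for the three charts;
* `s35ti_hes_V1`, `s35ti_hes_V1m`, `s35ti_hes_V2`, `s35ti_hes_V2m` : `τ` preserves the two Gauss
  valuation rings of `hs_E L h3 (N' q)` and their maximal ideals (`↔`);
* `s35ti_hes_P1`, `s35ti_hes_P2`                            : `hτP1`, `hτP2` of `tori_core` VERBATIM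
  (`P_i = ssm_tp_P B₁₂ V_i`), and on any chart `B = fc_chart O S`, `S` fixed by `τ`;
* `s35ti_hes_node`                                          : at every maximal crossing point
  `𝔫 ⊇ P1 + P2` of `B_x`: `τ_B⁻¹ 𝔫 = 𝔫` and `τ_B b - b^(q²) ∈ 𝔫` for all `b : B_x`.
-/
import Mathlib
import Fermat.Agent.S35.TauInst.Abstract
import Fermat.Agent.S35.NodeFrob.Hes
import Fermat.Agent.SS.Model.SigmaW
import Fermat.Agent.SS.Model.SigmaHesseM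

set_option autoImplicit false
set_option linter.unusedSectionVars false
set_option linter.unusedVariables false
set_option linter.style.haveILetI false

noncomputable section

open ModularCurve IntermediateField IsLocalRing Polynomial
open Fermat.Agent.JT3 Fermat.Agent.SS

namespace Fermat.Agent.S35

section AnyLevel

variable {L : Type*} [Field L] [CharZero L] [Algebra L (AlgebraicClosure ℚ)] (h3 : (3 : L) ≠ 0)
  (O : ValuationSubring L) (M : ℕ) [NeZero M] (σ : L ≃+* L) {q : ℕ}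

/-- `τ = σ_E²` on `hs_E L h3 M`. -/
def s35ti_hes_tau : ↥(hs_E L h3 M) ≃+* ↥(hs_E L h3 M) :=
  (ssm_sgh_aut h3 M σ).trans (ssm_sgh_aut h3 M σ)

theorem s35ti_hes_tau_apply (z : ↥(hs_E L h3 M)) :
    s35ti_hes_tau h3 M σ z = ssm_sgh_aut h3 M σ (ssm_sgh_aut h3 M σ z) := rfl

/-- `hτbase` of `tori_core`. -/
theorem s35ti_hes_base (hσ : s35nf_FrobAt O σ q) (a : ↥O) :
    s35ti_hes_tau h3 M σ (algebraMap ↥O ↥(hs_E L h3 M) a) =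
      algebraMap ↥O ↥(hs_E L h3 M) (s35ti_tau0 hσ a) := by
  rw [s35ti_hes_tau_apply]
  have h1 : ssm_sgh_aut h3 M σ (algebraMap ↥O ↥(hs_E L h3 M) a) =
      algebraMap ↥O ↥(hs_E L h3 M) (s35nf_base hσ a) := ssm_sgh_aut_algebraMap h3 M σ (a : L)
  have h2 : ssm_sgh_aut h3 M σ (algebraMap ↥O ↥(hs_E L h3 M) (s35nf_base hσ a)) =
      algebraMap ↥O ↥(hs_E L h3 M) (s35nf_base hσ (s35nf_base hσ a)) :=
    ssm_sgh_aut_algebraMap h3 M σ ((s35nf_base hσ a : ↥O) : L)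
  rw [h1, h2]
  rfl

/-- `hτx` of `tori_core`. -/
theorem s35ti_hes_x : s35ti_hes_tau h3 M σ (hs_muE h3 M - 1) = hs_muE h3 M - 1 := by
  rw [s35ti_hes_tau_apply, ssm_sgm_aut_x, ssm_sgm_aut_x]

theorem s35ti_hes_x_inv : s35ti_hes_tau h3 M σ (hs_muE h3 M - 1)⁻¹ = (hs_muE h3 M - 1)⁻¹ := by
  rw [map_inv₀, s35ti_hes_x]

/-- `τ` preserves every chart whose coordinates it fixes. -/
theorem s35ti_hes_chart_of (hσ : s35nf_FrobAt O σ q) (S : Set ↥(hs_E L h3 M))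
    (hS : ∀ s ∈ S, s35ti_hes_tau h3 M σ s = s) (z : ↥(hs_E L h3 M)) :
    s35ti_hes_tau h3 M σ z ∈ fc_chart ↥O S ↔ z ∈ fc_chart ↥O S :=
  s35ti_chart_iff (s35ti_hes_tau h3 M σ) (s35ti_tau0 hσ) (s35ti_hes_base h3 O M σ hσ) S hS z

theorem s35ti_hes_fix1 (s : ↥(hs_E L h3 M))
    (hs : s ∈ ({hs_muE h3 M - 1} : Set ↥(hs_E L h3 M))) : s35ti_hes_tau h3 M σ s = s := by
  rw [Set.mem_singleton_iff.1 hs]; exact s35ti_hes_x h3 M σ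

theorem s35ti_hes_fix2 (s : ↥(hs_E L h3 M))
    (hs : s ∈ ({(hs_muE h3 M - 1)⁻¹} : Set ↥(hs_E L h3 M))) : s35ti_hes_tau h3 M σ s = s := by
  rw [Set.mem_singleton_iff.1 hs]; exact s35ti_hes_x_inv h3 M σ

theorem s35ti_hes_fix12 (s : ↥(hs_E L h3 M))
    (hs : s ∈ ({hs_muE h3 M - 1, (hs_muE h3 M - 1)⁻¹} : Set ↥(hs_E L h3 M))) :
    s35ti_hes_tau h3 M σ s = s := by
  rcases Set.mem_insert_iff.1 hs with hs | hs
  · rw [hs]; exact s35ti_hes_x h3 M σ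
  · rw [Set.mem_singleton_iff.1 hs]; exact s35ti_hes_x_inv h3 M σ

/-- the three charts of the `x`-line. -/
theorem s35ti_hes_chart1 (hσ : s35nf_FrobAt O σ q) (z : ↥(hs_E L h3 M)) :
    s35ti_hes_tau h3 M σ z ∈ fc_chart ↥O ({hs_muE h3 M - 1} : Set ↥(hs_E L h3 M)) ↔
      z ∈ fc_chart ↥O ({hs_muE h3 M - 1} : Set ↥(hs_E L h3 M)) :=
  s35ti_hes_chart_of h3 O M σ hσ _ (s35ti_hes_fix1 h3 M σ) z

theorem s35ti_hes_chart2 (hσ : s35nf_FrobAt O σ q) (z : ↥(hs_E L h3 M)) :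
    s35ti_hes_tau h3 M σ z ∈ fc_chart ↥O ({(hs_muE h3 M - 1)⁻¹} : Set ↥(hs_E L h3 M)) ↔
      z ∈ fc_chart ↥O ({(hs_muE h3 M - 1)⁻¹} : Set ↥(hs_E L h3 M)) :=
  s35ti_hes_chart_of h3 O M σ hσ _ (s35ti_hes_fix2 h3 M σ) z

theorem s35ti_hes_chart12 (hσ : s35nf_FrobAt O σ q) (z : ↥(hs_E L h3 M)) :
    s35ti_hes_tau h3 M σ z ∈
        fc_chart ↥O ({hs_muE h3 M - 1, (hs_muE h3 M - 1)⁻¹} : Set ↥(hs_E L h3 M)) ↔
      z ∈ fc_chart ↥O ({hs_muE h3 M - 1, (hs_muE h3 M - 1)⁻¹} : Set ↥(hs_E L h3 M)) :=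
  s35ti_hes_chart_of h3 O M σ hσ _ (s35ti_hes_fix12 h3 M σ) z

end AnyLevel

section Tower

variable {L : Type*} [Field L] [CharZero L] [Algebra L (AlgebraicClosure ℚ)] (h3 : (3 : L) ≠ 0)
  (O : ValuationSubring L) [IsDiscreteValuationRing O] (h3O : IsUnit (3 : O)) {π : O}
  (hπ : Irreducible π)
variable (N' q : ℕ) [NeZero N'] [NeZero q] [hq : Fact q.Prime] [CharP (ResidueField O) q]
  (hq3 : ¬ 3 ∣ q) (hqN' : ¬ q ∣ N')
variable (σ : L ≃+* L) (hσ : s35nf_FrobAt O σ q)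

include hσ in
/-- `τ` preserves the Gauss valuation ring `V₁` … -/
theorem s35ti_hes_V1 (z : ↥(hs_E L h3 (N' * q))) :
    s35ti_hes_tau h3 (N' * q) σ z ∈ ssm_fh_V1 h3 O h3O hπ N' q ↔
      z ∈ ssm_fh_V1 h3 O h3O hπ N' q :=
  s35ti_sq_iff (ssm_sgh_aut h3 (N' * q) σ) (p := fun z => z ∈ ssm_fh_V1 h3 O h3O hπ N' q)
    (s35ti_gauss_mem π hπ.ne_zero hπ.maximalIdeal_eq _ _ hσ (ssm_sgh_aut h3 (N' * q) σ)
      (fun _ => rfl)) z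

include hσ in
/-- … and its maximal ideal. -/
theorem s35ti_hes_V1m (z : ↥(hs_E L h3 (N' * q))) :
    s35ti_hes_tau h3 (N' * q) σ z ∈ (ssm_fh_V1 h3 O h3O hπ N' q).nonunits ↔
      z ∈ (ssm_fh_V1 h3 O h3O hπ N' q).nonunits :=
  s35ti_sq_iff (ssm_sgh_aut h3 (N' * q) σ)
    (p := fun z => z ∈ (ssm_fh_V1 h3 O h3O hπ N' q).nonunits)
    (s35ti_gauss_nonunits π hπ.ne_zero hπ.maximalIdeal_eq _ _ hσ (ssm_sgh_aut h3 (N' * q) σ)
      (fun _ => rfl)) z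

include hσ in
/-- `τ` preserves the second valuation ring `V₂ = W V₁` … -/
theorem s35ti_hes_V2 (z : ↥(hs_E L h3 (N' * q))) :
    s35ti_hes_tau h3 (N' * q) σ z ∈ ssm_fh_V2 h3 O h3O hπ N' q hq3 hqN' ↔
      z ∈ ssm_fh_V2 h3 O h3O hπ N' q hq3 hqN' :=
  s35ti_sq_iff (ssm_sgh_aut h3 (N' * q) σ)
    (p := fun z => z ∈ ssm_fh_V2 h3 O h3O hπ N' q hq3 hqN')
    (s35ti_comap_mem_iff (ssm_sgh_aut h3 (N' * q) σ) (ssm_fh_V1 h3 O h3O hπ N' q)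
      (ssm_fh_W h3 N' q hq3 hqN')
      (fun z => ssm_sgw_comm_hes L h3 (ssm_fh_hF9 h3) N' q hq.out hq3 hqN' σ z)
      (fun t ht => (s35ti_gauss_mem π hπ.ne_zero hπ.maximalIdeal_eq _ _ hσ
        (ssm_sgh_aut h3 (N' * q) σ) (fun _ => rfl) t).2 ht)
      (fun t ht => (s35ti_gauss_nonunits π hπ.ne_zero hπ.maximalIdeal_eq _ _ hσ
        (ssm_sgh_aut h3 (N' * q) σ) (fun _ => rfl) t).2 ht)) z

include hσ in
/-- … and its maximal ideal. -/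
theorem s35ti_hes_V2m (z : ↥(hs_E L h3 (N' * q))) :
    s35ti_hes_tau h3 (N' * q) σ z ∈ (ssm_fh_V2 h3 O h3O hπ N' q hq3 hqN').nonunits ↔
      z ∈ (ssm_fh_V2 h3 O h3O hπ N' q hq3 hqN').nonunits :=
  s35ti_sq_iff (ssm_sgh_aut h3 (N' * q) σ)
    (p := fun z => z ∈ (ssm_fh_V2 h3 O h3O hπ N' q hq3 hqN').nonunits)
    (s35ti_comap_nonunits_iff (ssm_sgh_aut h3 (N' * q) σ) (ssm_fh_V1 h3 O h3O hπ N' q)
      (ssm_fh_W h3 N' q hq3 hqN')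
      (fun z => ssm_sgw_comm_hes L h3 (ssm_fh_hF9 h3) N' q hq.out hq3 hqN' σ z)
      (fun t ht => (s35ti_gauss_mem π hπ.ne_zero hπ.maximalIdeal_eq _ _ hσ
        (ssm_sgh_aut h3 (N' * q) σ) (fun _ => rfl) t).2 ht)
      (fun t ht => (s35ti_gauss_nonunits π hπ.ne_zero hπ.maximalIdeal_eq _ _ hσ
        (ssm_sgh_aut h3 (N' * q) σ) (fun _ => rfl) t).2 ht)) z

include hσ in
/-- `τ` preserves `P₁ = ssm_tp_P B V₁` on every chart `B = fc_chart O S` with `S` fixed. -/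
theorem s35ti_hes_P1_of (S : Set ↥(hs_E L h3 (N' * q)))
    (hS : ∀ s ∈ S, s35ti_hes_tau h3 (N' * q) σ s = s) (b b' : fc_chart ↥O S)
    (h : (b' : ↥(hs_E L h3 (N' * q))) =
      s35ti_hes_tau h3 (N' * q) σ (b : ↥(hs_E L h3 (N' * q)))) :
    b' ∈ ssm_tp_P (fc_chart ↥O S) (ssm_fh_V1 h3 O h3O hπ N' q) ↔
      b ∈ ssm_tp_P (fc_chart ↥O S) (ssm_fh_V1 h3 O h3O hπ N' q) :=
  s35ti_P_iff (s35ti_hes_tau h3 (N' * q) σ) _ _ (s35ti_hes_chart_of h3 O (N' * q) σ hσ S hS)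
    (s35ti_hes_V1m h3 O h3O hπ N' q σ hσ) b b' h

include hσ in
/-- `τ` preserves `P₂ = ssm_tp_P B V₂` on every chart `B = fc_chart O S` with `S` fixed. -/
theorem s35ti_hes_P2_of (S : Set ↥(hs_E L h3 (N' * q)))
    (hS : ∀ s ∈ S, s35ti_hes_tau h3 (N' * q) σ s = s) (b b' : fc_chart ↥O S)
    (h : (b' : ↥(hs_E L h3 (N' * q))) =
      s35ti_hes_tau h3 (N' * q) σ (b : ↥(hs_E L h3 (N' * q)))) :
    b' ∈ ssm_tp_P (fc_chart ↥O S) (ssm_fh_V2 h3 O h3O hπ N' q hq3 hqN') ↔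
      b ∈ ssm_tp_P (fc_chart ↥O S) (ssm_fh_V2 h3 O h3O hπ N' q hq3 hqN') :=
  s35ti_P_iff (s35ti_hes_tau h3 (N' * q) σ) _ _ (s35ti_hes_chart_of h3 O (N' * q) σ hσ S hS)
    (s35ti_hes_V2m h3 O h3O hπ N' q hq3 hqN' σ hσ) b b' h

include hσ in
/-- **`hτP1` of `tori_core`** (overlap chart). -/
theorem s35ti_hes_P1
    (b b' : fc_chart ↥O ({hs_muE h3 (N' * q) - 1, (hs_muE h3 (N' * q) - 1)⁻¹} :
      Set ↥(hs_E L h3 (N' * q))))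
    (h : (b' : ↥(hs_E L h3 (N' * q))) =
      s35ti_hes_tau h3 (N' * q) σ (b : ↥(hs_E L h3 (N' * q)))) :
    b' ∈ ssm_tp_P (fc_chart ↥O ({hs_muE h3 (N' * q) - 1, (hs_muE h3 (N' * q) - 1)⁻¹} :
        Set ↥(hs_E L h3 (N' * q)))) (ssm_fh_V1 h3 O h3O hπ N' q) ↔
      b ∈ ssm_tp_P (fc_chart ↥O ({hs_muE h3 (N' * q) - 1, (hs_muE h3 (N' * q) - 1)⁻¹} :
        Set ↥(hs_E L h3 (N' * q)))) (ssm_fh_V1 h3 O h3O hπ N' q) :=
  s35ti_hes_P1_of h3 O h3O hπ N' q σ hσ _ (s35ti_hes_fix12 h3 (N' * q) σ) b b' h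

include hσ in
/-- **`hτP2` of `tori_core`** (overlap chart). -/
theorem s35ti_hes_P2
    (b b' : fc_chart ↥O ({hs_muE h3 (N' * q) - 1, (hs_muE h3 (N' * q) - 1)⁻¹} :
      Set ↥(hs_E L h3 (N' * q))))
    (h : (b' : ↥(hs_E L h3 (N' * q))) =
      s35ti_hes_tau h3 (N' * q) σ (b : ↥(hs_E L h3 (N' * q)))) :
    b' ∈ ssm_tp_P (fc_chart ↥O ({hs_muE h3 (N' * q) - 1, (hs_muE h3 (N' * q) - 1)⁻¹} :
        Set ↥(hs_E L h3 (N' * q)))) (ssm_fh_V2 h3 O h3O hπ N' q hq3 hqN') ↔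
      b ∈ ssm_tp_P (fc_chart ↥O ({hs_muE h3 (N' * q) - 1, (hs_muE h3 (N' * q) - 1)⁻¹} :
        Set ↥(hs_E L h3 (N' * q)))) (ssm_fh_V2 h3 O h3O hπ N' q hq3 hqN') :=
  s35ti_hes_P2_of h3 O h3O hπ N' q hq3 hqN' σ hσ _ (s35ti_hes_fix12 h3 (N' * q) σ) b b' h

set_option synthInstance.maxHeartbeats 200000 in
set_option maxHeartbeats 1600000 in
include hσ in
/-- **the nodes**: at every maximal crossing point `𝔫 ⊇ P₁ + P₂` of the chart `B_x`,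
`τ_B⁻¹ 𝔫 = 𝔫` and `τ_B b ≡ b^(q²) mod 𝔫` (`τ_B = s35ti_restrict τ B_x`). -/
theorem s35ti_hes_node
    (hprime : Prime (algebraMap ↥O
      (fc_chart ↥O ({hs_muE h3 N' - 1} : Set ↥(hs_E L h3 N'))) π))
    (hic : IsIntegrallyClosed (fc_chart ↥O ({hs_muE h3 N' - 1} : Set ↥(hs_E L h3 N')) ⧸
      (Ideal.span {algebraMap ↥O (fc_chart ↥O ({hs_muE h3 N' - 1} : Set ↥(hs_E L h3 N'))) π} :
        Ideal (fc_chart ↥O ({hs_muE h3 N' - 1} : Set ↥(hs_E L h3 N'))))))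
    (F : ssm_i1g_Facts ↥O q (hs_muE h3 (N' * q) - 1)
      (ssm_fh_W h3 N' q hq3 hqN' (hs_muE h3 (N' * q)) - 1)
      (hs_muE h3 (N' * q) ^ 2 + hs_muE h3 (N' * q) + 1)
      (ssm_fh_W h3 N' q hq3 hqN' (hs_muE h3 (N' * q)) ^ 2 +
        ssm_fh_W h3 N' q hq3 hqN' (hs_muE h3 (N' * q)) + 1)
      (ssm_fh_V1 h3 O h3O hπ N' q) (ssm_fh_V2 h3 O h3O hπ N' q hq3 hqN'))
    (𝔫 : Ideal (fc_chart ↥O ({hs_muE h3 (N' * q) - 1} : Set ↥(hs_E L h3 (N' * q)))))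
    (h𝔫 : 𝔫.IsMaximal)
    (hP1 : ssm_tp_P (fc_chart ↥O ({hs_muE h3 (N' * q) - 1} : Set ↥(hs_E L h3 (N' * q))))
      (ssm_fh_V1 h3 O h3O hπ N' q) ≤ 𝔫)
    (hP2 : ssm_tp_P (fc_chart ↥O ({hs_muE h3 (N' * q) - 1} : Set ↥(hs_E L h3 (N' * q))))
      (ssm_fh_V2 h3 O h3O hπ N' q hq3 hqN') ≤ 𝔫) :
    𝔫.comap (s35ti_restrict (s35ti_hes_tau h3 (N' * q) σ) _
        (s35ti_hes_chart1 h3 O (N' * q) σ hσ) :
        fc_chart ↥O ({hs_muE h3 (N' * q) - 1} : Set ↥(hs_E L h3 (N' * q))) →+* _) = 𝔫 ∧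
    ∀ b : fc_chart ↥O ({hs_muE h3 (N' * q) - 1} : Set ↥(hs_E L h3 (N' * q))),
      s35ti_restrict (s35ti_hes_tau h3 (N' * q) σ) _ (s35ti_hes_chart1 h3 O (N' * q) σ hσ) b -
        b ^ (q ^ 2) ∈ 𝔫 := by
  obtain ⟨hA, hI⟩ := s35nf_hes h3 O h3O hπ N' q hq3 hqN' hprime hic F σ hσ 𝔫 h𝔫 hP1 hP2
  refine ⟨?_, fun b => ?_⟩
  · ext z
    rw [Ideal.mem_comap, ← hI z, RingEquiv.coe_toRingHom]
    constructor
    · intro hz
      exact ⟨_, hz, rfl⟩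
    · rintro ⟨m, hm, hmz⟩
      have : s35ti_restrict (s35ti_hes_tau h3 (N' * q) σ) _
          (s35ti_hes_chart1 h3 O (N' * q) σ hσ) z = m := Subtype.ext hmz.symm
      rw [this]
      exact hm
  · obtain ⟨m, hm, hmb⟩ := hA b
    have : s35ti_restrict (s35ti_hes_tau h3 (N' * q) σ) _
        (s35ti_hes_chart1 h3 O (N' * q) σ hσ) b - b ^ (q ^ 2) = m := Subtype.ext hmb.symm
    rw [this]
    exact hm

end Tower

end Fermat.Agent.S35
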